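import Fermat.Agent.S22.PolyOfDeriv
import Mathlib.NumberTheory.ModularForms.QExpansion
import Mathlib.Analysis.Complex.HasPrimitives
import Mathlib.Analysis.Complex.RemovableSingularity

set_option autoImplicit false

open UpperHalfPlane hiding I
open Real Complex Filter Function
open scoped Manifold MatrixGroups ModularForm Topology
open Derivative

namespace Fermat.Agent.S22

noncomputable section

local notation "𝕢" => Periodic.qParam

/-- A holomorphic periodic function on the upper half plane which tends to zero at `i∞` has a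
holomorphic periodic primitive (for the normalised derivative `D`) tending to zero at `i∞`. -/
theorem exists_primitive {F : ℍ → ℂ} {h : ℝ} (hh : 0 < h) (hF : MDiff F)
    (hper : Periodic (F ∘ ofComplex) h) (hzero : IsZeroAtImInfty F) :
    ∃ G : ℍ → ℂ, MDiff G ∧ D G = F ∧ Periodic (G ∘ ofComplex) h ∧ IsZeroAtImInfty G := by
  set φ := cuspFunction h F with hφ
  have hφd : DifferentiableOn ℂ φ (Metric.ball 0 1) :=
    differentiableOn_cuspFunction_ball hh hper hF hzero.isBoundedAtImInfty
  have hφ0 : φ 0 = 0 := by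
    rw [hφ, cuspFunction_apply_zero hh
      (analyticAt_cuspFunction_zero hh hper hF hzero.isBoundedAtImInfty) hper]
    exact hzero.valueAtInfty_eq_zero
  have hχd : DifferentiableOn ℂ (dslope φ 0) (Metric.ball 0 1) :=
    (Complex.differentiableOn_dslope (Metric.ball_mem_nhds 0 one_pos)).mpr hφd
  obtain ⟨ψ, hψ0, hψ⟩ := hχd.isExactOn_ball.with_val_at 0 0
  -- the primitive
  have hq1 : ∀ w : ℂ, 0 < w.im → 𝕢 h w ∈ Metric.ball (0 : ℂ) 1 := fun w hw => by
    simpa using Periodic.norm_qParam_lt_one hh hw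
  have hderiv : ∀ w : ℂ, 0 < w.im →
      HasDerivAt (fun w => (h : ℂ) * ψ (𝕢 h w)) ((2 * π * I) * F (ofComplex w)) w := by
    intro w hw
    have hqd : HasDerivAt (𝕢 h) (𝕢 h w * (2 * π * I / h)) w := by
      simpa only [id_eq, mul_one] using! (((hasDerivAt_id w).const_mul _).div_const _).cexp
    have h1 := ((hψ _ (hq1 w hw)).comp w hqd).const_mul (h : ℂ)
    have hhc : (h : ℂ) ≠ 0 := by exact_mod_cast hh.ne'
    have h2 : (𝕢 h w) * dslope φ 0 (𝕢 h w) = F (ofComplex w) := by
      have := sub_smul_dslope φ 0 (𝕢 h w)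
      rw [sub_zero, hφ0, sub_zero, smul_eq_mul] at this
      rw [this, hφ]
      have := eq_cuspFunction (ofComplex w) hh.ne' hper
      rw [← this, ofComplex_apply_of_im_pos hw]
    have h3 : (h : ℂ) * (dslope φ 0 (𝕢 h w) * (𝕢 h w * (2 * π * I / h))) =
        (2 * π * I) * F (ofComplex w) := by
      rw [← h2]
      field_simp
    rw [← h3]
    exact h1
  refine ⟨fun z => (h : ℂ) * ψ (𝕢 h z), ?_, ?_, ?_, ?_⟩
  · rw [UpperHalfPlane.mdifferentiable_iff]
    intro w hw
    have : DifferentiableWithinAt ℂ (fun w => (h : ℂ) * ψ (𝕢 h w)) upperHalfPlaneSet w :=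
      (hderiv w hw).differentiableAt.differentiableWithinAt
    refine this.congr (fun v hv => ?_) ?_
    · simp [ofComplex_apply_of_im_pos hv]
    · simp [ofComplex_apply_of_im_pos hw]
  · ext z
    have hcomp : ((fun z : ℍ => (h : ℂ) * ψ (𝕢 h z)) ∘ ofComplex) =ᶠ[𝓝 ↑z]
        fun w => (h : ℂ) * ψ (𝕢 h w) := by
      filter_upwards [isOpen_upperHalfPlaneSet.mem_nhds z.im_pos] with w hw
      simp [ofComplex_apply_of_im_pos hw]
    simp only [normalizedDerivOfComplex]
    rw [hcomp.deriv_eq, (hderiv z z.im_pos).deriv, ofComplex_apply]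
    have h2 : (2 * π * I : ℂ) ≠ 0 := by simp [Real.pi_ne_zero]
    field_simp
  · intro w
    by_cases hw : 0 < w.im
    · have hw' : 0 < (w + h).im := by simpa using hw
      simp only [comp_apply, ofComplex_apply_of_im_pos hw, ofComplex_apply_of_im_pos hw']
      congr 2
      simp only [Periodic.qParam]
      have hhc : (h : ℂ) ≠ 0 := by exact_mod_cast hh.ne'
      rw [show 2 * π * I * (w + h) / h = 2 * π * I * w / h + 2 * π * I by field_simp,
        Complex.exp_add, Complex.exp_two_pi_mul_I, mul_one]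
    · have hw' : (w + h).im ≤ 0 := by simpa using not_lt.mp hw
      simp only [comp_apply, ofComplex_apply_of_im_nonpos hw',
        ofComplex_apply_of_im_nonpos (not_lt.mp hw)]
  · have hc : ContinuousAt ψ 0 := (hψ 0 (by simp)).continuousAt
    have h1 : Tendsto (fun z : ℍ => ψ (𝕢 h z)) atImInfty (𝓝 (ψ 0)) :=
      hc.tendsto.comp (qParam_tendsto_atImInfty hh)
    have h2 := h1.const_mul (h : ℂ)
    rw [hψ0, mul_zero] at h2
    exact h2

/-- uniqueness of the decaying primitive -/
theorem primitive_unique {G₁ G₂ : ℍ → ℂ} (h₁ : MDiff G₁) (h₂ : MDiff G₂) (hD : D G₁ = D G₂)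
    (hz₁ : IsZeroAtImInfty G₁) (hz₂ : IsZeroAtImInfty G₂) : G₁ = G₂ := by
  have h0 : D (G₁ - G₂) = 0 := by
    rw [normalizedDerivOfComplex_sub _ _ h₁ h₂, hD, sub_self]
  obtain ⟨c, hc⟩ := const_of_D_eq_zero (h₁.sub h₂) h0
  have ht : Tendsto (G₁ - G₂) atImInfty (𝓝 0) := by
    have := Tendsto.sub hz₁ hz₂
    rw [sub_zero] at this
    exact this
  have ht' : Tendsto (G₁ - G₂) atImInfty (𝓝 c) := by
    have : (G₁ - G₂) = fun _ => c := funext hc
    rw [this]
    exact tendsto_const_nhds
  have hc0 : c = 0 := tendsto_nhds_unique ht' ht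
  ext z
  have := hc z
  rw [hc0] at this
  simpa [sub_eq_zero] using this

end

end Fermat.Agent.S22
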