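import Mathlib.RingTheory.Adjoin.Basic
import Mathlib.RingTheory.Noetherian.Basic
import Mathlib.RingTheory.Finiteness.Basic
import Mathlib.LinearAlgebra.Dual.Defs
import Mathlib.RingTheory.PrincipalIdealDomain
import Mathlib.Analysis.Complex.Basic
import Mathlib.RingTheory.Int.Basic
import Mathlib.Algebra.EuclideanDomain.Int

set_option autoImplicit false

namespace Fermat.Agent.S22

theorem comp_mem_of_mem_adjoin {X : Type*} [AddCommGroup X] [Module ℂ X]
    (gens : Set (Module.End ℂ X)) (L : Submodule ℤ (Module.Dual ℂ X))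
    (hstab : ∀ t ∈ gens, ∀ l ∈ L, l.comp t ∈ L) {t : Module.End ℂ X}
    (ht : t ∈ Algebra.adjoin ℤ gens) : ∀ l ∈ L, l.comp t ∈ L := by
  induction ht using Algebra.adjoin_induction with
  | mem x hx => exact hstab x hx
  | algebraMap r =>
    intro l hl
    have : l.comp (algebraMap ℤ (Module.End ℂ X) r) = r • l := by
      ext x
      simp
    rw [this]
    exact L.smul_mem r hl
  | add x y _ _ hx hy =>
    intro l hl
    rw [LinearMap.comp_add]
    exact L.add_mem (hx l hl) (hy l hl)
  | mul x y _ _ hx hy =>
    intro l hl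
    have : l.comp (x * y) = (l.comp x).comp y := rfl
    rw [this]
    exact hy _ (hx l hl)

theorem finite_of_lattice {X : Type*} [AddCommGroup X] [Module ℂ X]
    (gens : Set (Module.End ℂ X)) (L : Submodule ℤ (Module.Dual ℂ X)) (hfg : L.FG)
    (hstab : ∀ t ∈ gens, ∀ l ∈ L, l.comp t ∈ L)
    (hsep : ∀ x : X, (∀ l ∈ L, l x = 0) → x = 0) :
    Module.Finite ℤ (Algebra.adjoin ℤ gens) := by
  have : Module.Finite ℤ L := Module.Finite.iff_fg.mpr hfg
  have : IsNoetherian ℤ L := isNoetherian_of_isNoetherianRing_of_finite ℤ L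
  obtain ⟨s, hs⟩ := hfg
  -- the map t ↦ (l ↦ l ∘ t) for l in the finite generating set
  let Φ : (Algebra.adjoin ℤ gens) →ₗ[ℤ] (s → L) :=
    { toFun := fun t l => ⟨(l : Module.Dual ℂ X).comp (t : Module.End ℂ X),
        comp_mem_of_mem_adjoin gens L hstab t.2 _ (hs ▸ Submodule.subset_span l.2)⟩
      map_add' := fun t t' => by
        funext l
        apply Subtype.ext
        simp [LinearMap.comp_add]
      map_smul' := fun r t => by
        funext l
        apply Subtype.ext
        ext x
        simp }
  have hΦ : Function.Injective Φ := by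
    rw [← LinearMap.ker_eq_bot, LinearMap.ker_eq_bot']
    intro t ht
    apply Subtype.ext
    have h1 : ∀ l ∈ s, (l : Module.Dual ℂ X).comp (t : Module.End ℂ X) = 0 := by
      intro l hl
      have := congrArg Subtype.val (congrFun ht ⟨l, hl⟩)
      simpa [Φ] using this
    have h2 : ∀ l ∈ L, (l : Module.Dual ℂ X).comp (t : Module.End ℂ X) = 0 := by
      intro l hl
      rw [← hs] at hl
      induction hl using Submodule.span_induction with
      | mem x hx => exact h1 x hx
      | zero => simp
      | add x y _ _ hx hy => rw [LinearMap.add_comp, hx, hy, add_zero]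
      | smul a x _ hx => rw [LinearMap.smul_comp, hx, smul_zero]
    ext x
    apply hsep
    intro l hl
    have := congrArg (fun f => f x) (h2 l hl)
    simpa using this
  exact Module.Finite.of_injective Φ hΦ

end Fermat.Agent.S22
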