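import Fermat.Agent.S22.Lam
import Mathlib.NumberTheory.ModularForms.NormTrace

set_option autoImplicit false

open UpperHalfPlane hiding I
open Real Complex Filter Function Matrix Matrix.SpecialLinearGroup
open scoped Manifold MatrixGroups ModularForm Topology
open Derivative CongruenceSubgroup

namespace Fermat.Agent.S22

noncomputable section

theorem const_of_isPer_polyFun {q : Polynomial ℂ} {m : ℝ} (hm : m ≠ 0) (h : IsPer m (polyFun q)) :
    ∃ c : ℂ, q = Polynomial.C c := by
  refine ⟨q.eval (UpperHalfPlane.I : ℂ), ?_⟩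
  apply Polynomial.eq_of_infinite_eval_eq
  have hinj : Function.Injective (fun j : ℕ => ((j * m : ℝ) : ℂ) + (UpperHalfPlane.I : ℂ)) := by
    intro a b hab
    have h1 : ((a * m : ℝ) : ℂ) = ((b * m : ℝ) : ℂ) := add_right_cancel hab
    have h2 : (a : ℝ) * m = b * m := by exact_mod_cast h1
    exact_mod_cast mul_right_cancel₀ hm h2
  refine (Set.infinite_range_of_injective hinj).mono ?_
  rintro _ ⟨j, rfl⟩
  have := h.nat_mul j UpperHalfPlane.I
  simp only [polyFun, coe_vadd] at this
  simpa using this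

theorem const_of_weight_nonpos {Γ : Subgroup (GL (Fin 2) ℝ)} [Γ.IsArithmetic] {k : ℤ} (hk : k ≤ 0)
    (g : ModularForm Γ k) : ∃ c : ℂ, (g : ℍ → ℂ) = Function.const ℍ c := by
  rcases hk.lt_or_eq with h | rfl
  · refine ⟨0, ?_⟩
    rw [ModularForm.isZero_of_neg_weight h g]
    rfl
  · exact ModularForm.eq_const_of_weight_zero g

theorem iterate_D_const (c : ℂ) (m : ℕ) : D^[m + 1] (Function.const ℍ c) = 0 := by
  induction m with
  | zero =>
    simp only [zero_add, Function.iterate_one]
    exact normalizedDerivOfComplex_const c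
  | succ m ih =>
    rw [Function.iterate_succ_apply', ih]
    exact normalizedDerivOfComplex_const 0

variable {N : ℕ} [NeZero N] {n : ℕ}

theorem eq_zero_of_Lam (f : CuspForm (Gamma0 N) ((n : ℤ) + 2)) (h : ∀ l ∈ Lam N n, l f = 0) :
    f = 0 := by
  set G := eich n ⇑f with hG
  have hf := cuspLike_coe f
  have hGc : CuspLike G := cuspLike_iterate_prim hf _
  -- invariance
  have hinv : ∀ γ ∈ Gamma0 N, G ∣[-(n : ℤ)] mapGL ℝ γ = G := by
    intro γ hγ
    have h0 : perPoly n ⇑f (mapGL ℝ γ) = 0 := by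
      ext j
      have := h _ (lam_mem_Lam hγ j)
      rw [lam_apply] at this
      simpa using this
    have h1 := polyFun_perPoly_SL f γ
    rw [h0, polyFun_zero, perFun, slash_eq_self f hγ] at h1
    exact (sub_eq_zero.mp h1.symm)
  -- boundedness at cusps
  have hbdd : ∀ δ : SL(2, ℤ), IsBoundedAtImInfty (G ∣[-(n : ℤ)] mapGL ℝ δ) := by
    intro δ
    have hH : CuspLike (eich n (⇑f ∣[(n : ℤ) + 2] mapGL ℝ δ)) :=
      cuspLike_iterate_prim (cuspLike_slash_SL f δ) _
    obtain ⟨h', hh', hper'⟩ := hH.per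
    have hperG : IsPer (N : ℕ) (G ∣[-(n : ℤ)] mapGL ℝ δ) := by
      rw [isPer_iff_slash (-(n : ℤ)), ← SlashAction.slash_mul]
      have h1 : δ * ModularGroup.T ^ (N : ℤ) * δ⁻¹ ∈ Gamma0 N := by
        have h2 : δ * ModularGroup.T ^ (N : ℤ) * δ⁻¹ ∈ CongruenceSubgroup.Gamma N :=
          (Gamma_normal N).conj_mem _ (ModularGroup_T_pow_mem_Gamma N N dvd_rfl) δ
        rw [Gamma_mem] at h2
        rw [Gamma0_mem]
        exact h2.2.2.1
      have h3 : mapGL ℝ δ * GeneralLinearGroup.upperRightHom ((N : ℕ) : ℝ) =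
          mapGL ℝ (δ * ModularGroup.T ^ (N : ℤ) * δ⁻¹) * mapGL ℝ δ := by
        rw [← map_mul, inv_mul_cancel_right, map_mul, mapGL_T_zpow]
        simp
      rw [h3, SlashAction.slash_mul, hinv _ h1]
    have hq := polyFun_perPoly_SL f δ
    rw [perFun, ← hG] at hq
    have hperq : IsPer ((h' : ℝ) * N) (polyFun (perPoly n ⇑f (mapGL ℝ δ))) := by
      intro τ
      rw [hq]
      simp only [Pi.sub_apply]
      rw [hperG.nat_mul h' τ, show (h' : ℝ) * N = N * h' by ring, hper'.nat_mul N τ]
    have hne : (h' : ℝ) * N ≠ 0 := by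
      have : (N : ℝ) ≠ 0 := by exact_mod_cast NeZero.ne N
      have : (h' : ℝ) ≠ 0 := by exact_mod_cast hh'.ne'
      positivity
    obtain ⟨c, hc⟩ := const_of_isPer_polyFun hne hperq
    have hsum : G ∣[-(n : ℤ)] mapGL ℝ δ =
        (fun _ => c) + eich n (⇑f ∣[(n : ℤ) + 2] mapGL ℝ δ) := by
      rw [hc] at hq
      ext τ
      have := congrFun hq τ
      simp only [polyFun, Polynomial.eval_C, Pi.sub_apply] at this
      simp only [Pi.add_apply, this]
      ring
    rw [hsum]
    exact (Filter.const_boundedAtFilter _ c).add hH.zero.isBoundedAtImInfty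
  let Gf : ModularForm (Subgroup.map (mapGL ℝ) (Gamma0 N)) (-(n : ℤ)) :=
    { toFun := G
      slash_action_eq' := by
        rintro _ ⟨γ, hγ, rfl⟩
        exact hinv γ hγ
      holo' := hGc.mdiff
      bdd_at_cusps' := fun {c} hc => by
        rw [Subgroup.IsArithmetic.isCusp_iff_isCusp_SL2Z] at hc
        rw [OnePoint.isBoundedAt_iff_forall_SL2Z hc]
        intro δ _
        exact hbdd δ }
  obtain ⟨c, hc⟩ := const_of_weight_nonpos (by simp) Gf
  have hGconst : G = Function.const ℍ c := hc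
  have hfz : (⇑f : ℍ → ℂ) = 0 := by
    rw [← iterate_D_iterate_prim hf (n + 1)]
    have : prim^[n + 1] ⇑f = G := rfl
    rw [this, hGconst, iterate_D_const]
  exact DFunLike.coe_injective hfz

end

end Fermat.Agent.S22
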