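import Fermat.Agent.S22.Stable

set_option autoImplicit false

open UpperHalfPlane hiding I
open Real Complex Filter Function Matrix Matrix.SpecialLinearGroup
open scoped Manifold MatrixGroups ModularForm Topology
open Derivative CongruenceSubgroup
open P2MW.S_ModularForm_heckeT_slash_eq_self_of_mem_Gamma0.ModularForm.HeckeSlashInvariance

namespace Fermat.Agent.S22

noncomputable section

variable {N : ℕ} [NeZero N] {n : ℕ}

theorem comp_mem_Lam {ι : Type} [Fintype ι] (α : ι → GL (Fin 2) ℝ) (hUT : ∀ i, IsUT (α i))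
    (hint : ∀ i, ∃ a b c d : ℤ, α i 0 0 = a ∧ α i 0 1 = b ∧ α i 1 0 = c ∧ α i 1 1 = d)
    (ℓ : ℕ) (hℓ : 0 < ℓ) (hdet : ∀ i, (α i).val.det = ℓ)
    (t : Module.End ℂ (CuspForm (Gamma0 N) ((n : ℤ) + 2)))
    (ht : ∀ f, ⇑(t f) = ∑ i, ⇑f ∣[(n : ℤ) + 2] α i)
    (hcos : ∀ γ ∈ Gamma0 N, ∀ i, ∃ γ' ∈ Gamma0 N, ∃ i', α i * mapGL ℝ γ = mapGL ℝ γ' * α i') :
    ∀ l ∈ Lam N n, l.comp t ∈ Lam N n := by
  intro l hl
  rw [Lam] at hl
  induction hl using Submodule.span_induction with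
  | zero => simp
  | add x y _ _ hx hy => rw [LinearMap.add_comp]; exact Submodule.add_mem _ hx hy
  | smul a x _ hx => rw [LinearMap.smul_comp]; exact Submodule.smul_mem _ _ hx
  | mem x hx =>
    obtain ⟨γ, hγ, j, rfl⟩ := hx
    choose γ' hγ' i' hcos' using hcos γ hγ
    choose a b c d ha hb hc hd using hint
    have key : (lam N n γ j).comp t = ∑ i, ∑ r ∈ Finset.range (n + 1),
        (actCoeff n (a (i' i)) (b (i' i)) (c (i' i)) (d (i' i)) r j) • lam N n (γ' i) r := by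
      ext f
      simp only [LinearMap.comp_apply, lam_apply, LinearMap.sum_apply, LinearMap.smul_apply]
      rw [perPoly_hecke α hUT ℓ hℓ hdet f (t f) (ht f) γ γ' hγ' i' hcos', Polynomial.finsetSum_coeff]
      refine Finset.sum_congr rfl fun i _ => ?_
      rw [coeff_polyAct n (ha _) (hb _) (hc _) (hd _)]
      simp
    rw [key]
    exact Submodule.sum_mem _ fun i _ => Submodule.sum_mem _ fun r _ =>
      Submodule.smul_mem _ _ (lam_mem_Lam (hγ' i) r)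

theorem isUT_heckeMatrix {p : ℕ} (hp : p ≠ 0) (j : ℕ) : IsUT (ModularForm.heckeMatrix p j) := by
  refine ⟨?_, 1, p, one_pos, Nat.pos_of_ne_zero hp, ?_, ?_⟩ <;>
    simp [ModularForm.val_heckeMatrix hp]

theorem isUT_heckeDiagMatrix {p : ℕ} (hp : p ≠ 0) : IsUT (ModularForm.heckeDiagMatrix p) := by
  refine ⟨?_, p, 1, Nat.pos_of_ne_zero hp, one_pos, ?_, ?_⟩ <;>
    simp [ModularForm.val_heckeDiagMatrix hp]

theorem int_heckeMatrix {p : ℕ} (hp : p ≠ 0) (j : ℕ) :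
    ∃ a b c d : ℤ, ModularForm.heckeMatrix p j 0 0 = a ∧ ModularForm.heckeMatrix p j 0 1 = b ∧
      ModularForm.heckeMatrix p j 1 0 = c ∧ ModularForm.heckeMatrix p j 1 1 = d := by
  refine ⟨1, j, 0, p, ?_, ?_, ?_, ?_⟩ <;> simp [ModularForm.val_heckeMatrix hp]

theorem int_heckeDiagMatrix {p : ℕ} (hp : p ≠ 0) :
    ∃ a b c d : ℤ, ModularForm.heckeDiagMatrix p 0 0 = a ∧ ModularForm.heckeDiagMatrix p 0 1 = b ∧
      ModularForm.heckeDiagMatrix p 1 0 = c ∧ ModularForm.heckeDiagMatrix p 1 1 = d := by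
  refine ⟨p, 0, 0, 1, ?_, ?_, ?_, ?_⟩ <;> simp [ModularForm.val_heckeDiagMatrix hp]

theorem det_heckeMatrix' {p : ℕ} (hp : p ≠ 0) (j : ℕ) :
    (ModularForm.heckeMatrix p j).val.det = p := by
  rw [← Matrix.GeneralLinearGroup.val_det_apply]; exact ModularForm.det_heckeMatrix hp j

theorem det_heckeDiagMatrix' {p : ℕ} (hp : p ≠ 0) :
    (ModularForm.heckeDiagMatrix p).val.det = p := by
  rw [← Matrix.GeneralLinearGroup.val_det_apply]; exact ModularForm.det_heckeDiagMatrix hp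

omit [NeZero N] in
theorem mem_Gamma0_iff_dvd {g : SL(2, ℤ)} : g ∈ Gamma0 N ↔ (N : ℤ) ∣ g 1 0 := by
  rw [Gamma0_mem, ZMod.intCast_zmod_eq_zero_iff_dvd]

theorem heckeT_comp_mem_Lam {p : ℕ} (hp : p.Prime) (hpN : ¬ p ∣ N) :
    ∀ l ∈ Lam N n, l.comp (CuspForm.heckeTLin ((n : ℤ) + 2) hp hpN) ∈ Lam N n := by
  have : Fact p.Prime := ⟨hp⟩
  have : NeZero p := ⟨hp.ne_zero⟩
  refine comp_mem_Lam (heckeRep p) ?_ ?_ p hp.pos ?_ _ ?_ ?_
  · intro x
    induction x using OnePoint.rec with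
    | infty => exact isUT_heckeDiagMatrix hp.ne_zero
    | coe j => exact isUT_heckeMatrix hp.ne_zero _
  · intro x
    induction x using OnePoint.rec with
    | infty => exact int_heckeDiagMatrix hp.ne_zero
    | coe j => exact int_heckeMatrix hp.ne_zero _
  · intro x
    induction x using OnePoint.rec with
    | infty => exact det_heckeDiagMatrix' hp.ne_zero
    | coe j => exact det_heckeMatrix' hp.ne_zero _
  · intro f
    rw [CuspForm.coe_heckeTLin_apply, heckeT_eq_sum_onePoint]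
  · intro γ hγ x
    obtain ⟨g', hg', h⟩ := heckeRep_mul hpN γ (mem_Gamma0_iff_dvd.mp hγ) x
    exact ⟨g', mem_Gamma0_iff_dvd.mpr hg', _, h⟩

theorem heckeU_comp_mem_Lam {p : ℕ} (hp : p.Prime) (hpN : p ∣ N) :
    ∀ l ∈ Lam N n, l.comp (CuspForm.heckeULin ((n : ℤ) + 2) hpN) ∈ Lam N n := by
  have : NeZero p := ⟨hp.ne_zero⟩
  refine comp_mem_Lam (fun x : ZMod p => ModularForm.heckeMatrix p x.val)
    (fun x => isUT_heckeMatrix hp.ne_zero _) (fun x => int_heckeMatrix hp.ne_zero _) p hp.pos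
    (fun x => det_heckeMatrix' hp.ne_zero _) _ ?_ ?_
  · intro f
    rw [CuspForm.coe_heckeULin_apply, heckeU_eq_sum_zmod]
  · intro γ hγ x
    have hN : (N : ℤ) ∣ γ 1 0 := mem_Gamma0_iff_dvd.mp hγ
    obtain ⟨g', hg', h⟩ := heckeMatrix_mul_of_dvd γ ((Int.natCast_dvd_natCast.mpr hpN).trans hN) x
    exact ⟨g', mem_Gamma0_iff_dvd.mpr (hg' ▸ Dvd.dvd.mul_left hN _), _, h⟩

theorem generators_comp_mem_Lam (S : Set ℕ) :
    ∀ t ∈ CuspForm.heckeGenerators N ((n : ℤ) + 2) S, ∀ l ∈ Lam N n, l.comp t ∈ Lam N n := by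
  rintro t (⟨ℓ, hℓ, hℓN, -, rfl⟩ | ⟨q, hqN, hq, -, rfl⟩)
  · exact heckeT_comp_mem_Lam hℓ hℓN
  · exact heckeU_comp_mem_Lam hq hqN

end

end Fermat.Agent.S22
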