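import Fermat.Agent.S22.Separate

set_option autoImplicit false

open UpperHalfPlane hiding I
open Real Complex Filter Function Matrix Matrix.SpecialLinearGroup
open scoped Manifold MatrixGroups ModularForm Topology
open Derivative CongruenceSubgroup

namespace Fermat.Agent.S22

noncomputable section

variable {N : ℕ} [NeZero N]

/-- a cusp form viewed as a modular form -/
def toMF {k : ℤ} (f : CuspForm (Gamma0 N) k) : ModularForm (Gamma0 N) k :=
  { toSlashInvariantForm := f.toSlashInvariantForm
    holo' := f.holo'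
    bdd_at_cusps' := fun hc g hg => (f.zero_at_cusps' hc g hg).boundedAtFilter }

theorem eq_zero_of_le_one {k : ℤ} (hk : k ≤ 1) (f : CuspForm (Gamma0 N) k) : f = 0 := by
  rcases hk.lt_or_eq with h | rfl
  · obtain ⟨c, hc⟩ := const_of_weight_nonpos (by omega) (toMF f)
    have hc' : (⇑f : ℍ → ℂ) = Function.const ℍ c := hc
    have hz : IsZeroAtImInfty (⇑f : ℍ → ℂ) := (cuspLike_coe f).zero
    have h0 : c = 0 := by
      rw [hc'] at hz
      exact tendsto_nhds_unique tendsto_const_nhds hz
    apply DFunLike.coe_injective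
    rw [hc', h0]
    rfl
  · have hneg : (-1 : GL (Fin 2) ℝ) ∈ Subgroup.map (mapGL ℝ) (Gamma0 N) := by
      refine ⟨-1, ?_, ?_⟩
      · simp [Gamma0_mem]
      · ext i j
        simp
    have := ModularForm.eq_zero_of_neg_one_mem hneg odd_one (toMF f)
    apply DFunLike.coe_injective
    have h2 : (⇑f : ℍ → ℂ) = ⇑(toMF f) := rfl
    rw [h2, this]
    rfl

end

end Fermat.Agent.S22
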