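import Mathlib.NumberTheory.ModularForms.Derivative
import Mathlib.NumberTheory.ModularForms.Basic

set_option autoImplicit false

open UpperHalfPlane hiding I
open Real Complex
open scoped Manifold MatrixGroups ModularForm Topology
open Derivative

namespace Fermat.Agent.S22

noncomputable section

/-- iterates of `D` preserve holomorphy -/
theorem mdiff_iterate_D {F : ℍ → ℂ} (hF : MDiff F) (m : ℕ) : MDiff (D^[m] F) := by
  induction m with
  | zero => simpa using hF
  | succ m ih =>
    rw [Function.iterate_succ_apply']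
    exact normalizedDerivOfComplex_mdifferentiable ih

/-- The function `z ↦ denom g z` on the upper half plane. -/
def denomFun (g : GL (Fin 2) ℝ) : ℍ → ℂ := fun z => denom g z

theorem mdiff_denomFun (g : GL (Fin 2) ℝ) : MDiff (denomFun g) := mdifferentiable_denom g

theorem D_denomFun (g : GL (Fin 2) ℝ) :
    D (denomFun g) = fun _ => (2 * π * I)⁻¹ * (g 1 0 : ℂ) := by
  ext z
  have h := hasDerivAt_denom_zpow g 1 z
  simp only [zpow_one, Int.cast_one, one_mul, sub_self, zpow_zero, mul_one] at h
  have hcomp : (denomFun g ∘ ofComplex) =ᶠ[𝓝 ↑z] fun w => denom g w := by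
    filter_upwards [isOpen_upperHalfPlaneSet.mem_nhds z.im_pos] with w hw
    simp [denomFun, ofComplex_apply_of_im_pos hw]
  simp only [normalizedDerivOfComplex]
  rw [(h.congr_of_eventuallyEq hcomp).deriv]

theorem iterate_D_linear_mul {J H : ℍ → ℂ} (hJ : MDiff J) (hH : MDiff H) (c : ℂ)
    (hDJ : D J = fun _ => c) (m : ℕ) :
    D^[m + 1] (J * H) = J * D^[m + 1] H + ((m + 1 : ℕ) * c) • D^[m] H := by
  induction m with
  | zero =>
    simp only [zero_add, Function.iterate_one, Function.iterate_zero, id_eq, Nat.cast_one, one_mul]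
    rw [normalizedDerivOfComplex_mul J H hJ hH, hDJ]
    ext z
    simp [mul_comm, add_comm]
  | succ m ih =>
    rw [Function.iterate_succ_apply', ih]
    have h1 : MDiff (D^[m + 1] H) := mdiff_iterate_D hH _
    have h0 : MDiff (D^[m] H) := mdiff_iterate_D hH _
    rw [normalizedDerivOfComplex_add _ _ (hJ.mul h1) (h0.const_smul _),
      normalizedDerivOfComplex_mul J _ hJ h1, normalizedDerivOfComplex_smul _ _ h0, hDJ,
      ← Function.iterate_succ_apply' D, ← Function.iterate_succ_apply' D]
    ext z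
    simp only [Pi.add_apply, Pi.mul_apply, Pi.smul_apply, smul_eq_mul]
    push_cast
    ring

theorem iterate_D_smul {F : ℍ → ℂ} (hF : MDiff F) (c : ℂ) (m : ℕ) :
    D^[m] (c • F) = c • D^[m] F := by
  induction m with
  | zero => rfl
  | succ m ih =>
    rw [Function.iterate_succ_apply', ih, normalizedDerivOfComplex_smul _ _ (mdiff_iterate_D hF m),
      ← Function.iterate_succ_apply' D]

theorem slash_sub_one (k : ℤ) (F : ℍ → ℂ) {g : GL (Fin 2) ℝ} (hg : 0 < g.val.det) :
    F ∣[k - 1] g = ((g.val.det : ℂ)⁻¹) • (denomFun g * F ∣[k] g) := by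
  have hdet : g.det.val = g.val.det := Matrix.GeneralLinearGroup.val_det_apply g
  have hdetℂ : (g.val.det : ℂ) ≠ 0 := Complex.ofReal_ne_zero.mpr hg.ne'
  ext z
  have hz := denom_ne_zero g z
  simp only [ModularForm.slash_apply, Pi.smul_apply, Pi.mul_apply, smul_eq_mul, denomFun, hdet,
    abs_of_pos hg]
  rw [show k - 1 - 1 = (k - 1) - 1 by ring, zpow_sub_one₀ hdetℂ, show -(k - 1) = -k + 1 by ring,
    zpow_add_one₀ hz]
  ring

theorem bol (n : ℕ) {F : ℍ → ℂ} (hF : MDiff F) {g : GL (Fin 2) ℝ} (hg : 0 < g.val.det) :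
    D^[n + 1] (F ∣[-(n : ℤ)] g) =
      ((g.val.det : ℂ)⁻¹ ^ (n + 1)) • ((D^[n + 1] F) ∣[(n : ℤ) + 2] g) := by
  have hdetℂ : (g.val.det : ℂ) ≠ 0 := Complex.ofReal_ne_zero.mpr hg.ne'
  induction n with
  | zero =>
    simp only [zero_add, Function.iterate_one, Nat.cast_zero, neg_zero, pow_one]
    rw [normalizedDerivOfComplex_slash hF hg]
    ext z
    simp
  | succ n ih =>
    have hH : MDiff (F ∣[-(n : ℤ)] g) := hF.slash _ _
    rw [show (-((n + 1 : ℕ) : ℤ)) = -(n : ℤ) - 1 by push_cast; ring, slash_sub_one _ _ hg,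
      iterate_D_smul ((mdiff_denomFun g).mul hH),
      iterate_D_linear_mul (mdiff_denomFun g) hH _ (D_denomFun g) (n + 1),
      Function.iterate_succ_apply' D (n + 1), ih,
      normalizedDerivOfComplex_smul _ _ ((mdiff_iterate_D hF _).slash _ _),
      normalizedDerivOfComplex_slash (mdiff_iterate_D hF _) hg,
      ← Function.iterate_succ_apply' D (n + 1)]
    rw [show ((n + 1 : ℕ) : ℤ) + 2 = ((n : ℤ) + 2 + 2) - 1 by push_cast; ring, slash_sub_one _ _ hg]
    ext z
    have hz := denom_ne_zero g z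
    simp only [Pi.smul_apply, Pi.add_apply, Pi.mul_apply, smul_eq_mul, denomFun]
    push_cast
    simp only [inv_pow]
    field_simp
    ring

end

end Fermat.Agent.S22
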