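import Fermat.Agent.S22.Prim
import Mathlib.NumberTheory.ModularForms.BoundedAtCusp
import Mathlib.NumberTheory.ModularForms.Identities

set_option autoImplicit false

open UpperHalfPlane hiding I
open Real Complex Filter Function Matrix
open scoped Manifold MatrixGroups ModularForm Topology
open Derivative

namespace Fermat.Agent.S22

noncomputable section

/-- `F` is invariant under translation by `h`. -/
def IsPer (h : ℝ) (F : ℍ → ℂ) : Prop := ∀ τ : ℍ, F (h +ᵥ τ) = F τ

theorem slash_upperRightHom (k : ℤ) (h : ℝ) (F : ℍ → ℂ) (τ : ℍ) :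
    (F ∣[k] GeneralLinearGroup.upperRightHom h) τ = F (h +ᵥ τ) := by
  have : GeneralLinearGroup.upperRightHom h • τ = h +ᵥ τ := by
    ext
    simp [σ, num, denom, coe_vadd, UpperHalfPlane.coe_smul, add_comm]
  simp_rw [ModularForm.slash_def, this]
  simp [σ, denom, GeneralLinearGroup.val_det_apply]

theorem isPer_iff_slash (k : ℤ) (h : ℝ) (F : ℍ → ℂ) :
    IsPer h F ↔ F ∣[k] GeneralLinearGroup.upperRightHom h = F := by
  constructor
  · intro hF
    ext τ
    rw [slash_upperRightHom, hF]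
  · intro hF τ
    rw [← slash_upperRightHom k h F τ, hF]

theorem IsPer.periodic {h : ℝ} {F : ℍ → ℂ} (hF : IsPer h F) : Periodic (F ∘ ofComplex) h := by
  intro w
  by_cases hw : 0 < im w
  · have hw' : 0 < im (w + h) := by simp [hw]
    simp only [Function.comp_apply, ofComplex_apply_of_im_pos hw', ofComplex_apply_of_im_pos hw]
    rw [← hF ⟨w, hw⟩]
    congr 1
    ext
    simp [add_comm]
  · have hw' : im (w + h) ≤ 0 := by simpa using not_lt.mp hw
    simp [ofComplex_apply_of_im_nonpos hw', ofComplex_apply_of_im_nonpos (not_lt.mp hw)]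

theorem isPer_of_periodic {h : ℝ} {F : ℍ → ℂ} (hF : Periodic (F ∘ ofComplex) h) : IsPer h F := by
  intro τ
  have := hF τ
  simp only [Function.comp_apply, ofComplex_apply] at this
  rw [← this]
  congr 1
  have h2 : 0 < im ((τ : ℂ) + h) := by simpa using τ.im_pos
  rw [ofComplex_apply_of_im_pos h2]
  ext
  simp [add_comm]

theorem IsPer.nat_mul {h : ℝ} {F : ℍ → ℂ} (hF : IsPer h F) (m : ℕ) : IsPer (m * h) F := by
  induction m with
  | zero => intro τ; simp
  | succ m ih =>
    intro τ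
    rw [show ((m + 1 : ℕ) : ℝ) * h = h + m * h by push_cast; ring, add_vadd, hF, ih]

/-- holomorphic, periodic with a positive integer period, and zero at `i∞`. -/
structure CuspLike (F : ℍ → ℂ) : Prop where
  mdiff : MDiff F
  per : ∃ h : ℕ, 0 < h ∧ IsPer h F
  zero : IsZeroAtImInfty F

theorem CuspLike.add {F G : ℍ → ℂ} (hF : CuspLike F) (hG : CuspLike G) : CuspLike (F + G) := by
  obtain ⟨h₁, hh₁, hp₁⟩ := hF.per
  obtain ⟨h₂, hh₂, hp₂⟩ := hG.per
  refine ⟨hF.mdiff.add hG.mdiff, ⟨h₁ * h₂, Nat.mul_pos hh₁ hh₂, fun τ => ?_⟩, ?_⟩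
  · have e1 := hp₁.nat_mul h₂ τ
    have e2 := hp₂.nat_mul h₁ τ
    simp only [Pi.add_apply]
    rw [show ((h₁ * h₂ : ℕ) : ℝ) = h₂ * h₁ by push_cast; ring, e1,
      show (h₂ : ℝ) * h₁ = h₁ * h₂ by ring, e2]
  · have := Tendsto.add hF.zero hG.zero
    rw [add_zero] at this
    exact this

theorem CuspLike.smul {F : ℍ → ℂ} (hF : CuspLike F) (c : ℂ) : CuspLike (c • F) := by
  obtain ⟨h₁, hh₁, hp₁⟩ := hF.per
  refine ⟨hF.mdiff.const_smul c, ⟨h₁, hh₁, fun τ => ?_⟩, ?_⟩
  · simp only [Pi.smul_apply, hp₁ τ]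
  · have := Tendsto.const_smul hF.zero c
    rw [smul_zero] at this
    exact this

theorem cuspLike_zero : CuspLike (0 : ℍ → ℂ) :=
  ⟨mdifferentiable_const, ⟨1, one_pos, fun _ => rfl⟩, tendsto_const_nhds⟩

theorem cuspLike_sum {ι : Type*} (s : Finset ι) (F : ι → ℍ → ℂ) (hF : ∀ i ∈ s, CuspLike (F i)) :
    CuspLike (∑ i ∈ s, F i) := by
  classical
  induction s using Finset.induction_on with
  | empty => simpa using cuspLike_zero
  | insert a s ha ih =>
    rw [Finset.sum_insert ha]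
    exact (hF a (Finset.mem_insert_self a s)).add
      (ih fun i hi => hF i (Finset.mem_insert_of_mem hi))

theorem exists_prim {F : ℍ → ℂ} (hF : CuspLike F) : ∃ G : ℍ → ℂ, CuspLike G ∧ D G = F := by
  obtain ⟨h, hh, hp⟩ := hF.per
  obtain ⟨G, h1, h2, h3, h4⟩ := exists_primitive (h := (h : ℝ)) (by exact_mod_cast hh) hF.mdiff
    hp.periodic hF.zero
  exact ⟨G, ⟨h1, ⟨h, hh, isPer_of_periodic h3⟩, h4⟩, h2⟩

open Classical in
/-- the primitive (w.r.t. `D`) vanishing at `i∞` -/
def prim (F : ℍ → ℂ) : ℍ → ℂ := if hF : CuspLike F then (exists_prim hF).choose else 0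

theorem cuspLike_prim {F : ℍ → ℂ} (hF : CuspLike F) : CuspLike (prim F) := by
  rw [prim, dif_pos hF]
  exact (exists_prim hF).choose_spec.1

theorem D_prim {F : ℍ → ℂ} (hF : CuspLike F) : D (prim F) = F := by
  rw [prim, dif_pos hF]
  exact (exists_prim hF).choose_spec.2

theorem eq_prim {F G : ℍ → ℂ} (hF : CuspLike F) (hG : MDiff G) (hD : D G = F)
    (hz : IsZeroAtImInfty G) : G = prim F :=
  primitive_unique hG (cuspLike_prim hF).mdiff (hD.trans (D_prim hF).symm) hz (cuspLike_prim hF).zero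

theorem prim_add {F G : ℍ → ℂ} (hF : CuspLike F) (hG : CuspLike G) :
    prim (F + G) = prim F + prim G := by
  have h1 := cuspLike_prim hF
  have h2 := cuspLike_prim hG
  refine (eq_prim (hF.add hG) (h1.add h2).mdiff ?_ (h1.add h2).zero).symm
  rw [normalizedDerivOfComplex_add _ _ h1.mdiff h2.mdiff, D_prim hF, D_prim hG]

theorem prim_smul {F : ℍ → ℂ} (hF : CuspLike F) (c : ℂ) : prim (c • F) = c • prim F := by
  have h1 := cuspLike_prim hF
  refine (eq_prim (hF.smul c) (h1.smul c).mdiff ?_ (h1.smul c).zero).symm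
  rw [normalizedDerivOfComplex_smul _ _ h1.mdiff, D_prim hF]

theorem cuspLike_iterate_prim {F : ℍ → ℂ} (hF : CuspLike F) (m : ℕ) : CuspLike (prim^[m] F) := by
  induction m with
  | zero => exact hF
  | succ m ih =>
    rw [Function.iterate_succ_apply']
    exact cuspLike_prim ih

theorem iterate_D_iterate_prim {F : ℍ → ℂ} (hF : CuspLike F) (m : ℕ) :
    D^[m] (prim^[m] F) = F := by
  induction m with
  | zero => rfl
  | succ m ih =>
    rw [Function.iterate_succ_apply' prim, Function.iterate_succ_apply D,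
      D_prim (cuspLike_iterate_prim hF m), ih]

theorem iterate_prim_add {F G : ℍ → ℂ} (hF : CuspLike F) (hG : CuspLike G) (m : ℕ) :
    prim^[m] (F + G) = prim^[m] F + prim^[m] G := by
  induction m with
  | zero => rfl
  | succ m ih =>
    rw [Function.iterate_succ_apply', ih,
      prim_add (cuspLike_iterate_prim hF m) (cuspLike_iterate_prim hG m),
      ← Function.iterate_succ_apply' prim, ← Function.iterate_succ_apply' prim]

theorem iterate_prim_smul {F : ℍ → ℂ} (hF : CuspLike F) (c : ℂ) (m : ℕ) :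
    prim^[m] (c • F) = c • prim^[m] F := by
  induction m with
  | zero => rfl
  | succ m ih =>
    rw [Function.iterate_succ_apply', ih, prim_smul (cuspLike_iterate_prim hF m),
      ← Function.iterate_succ_apply' prim]

theorem iterate_prim_zero (m : ℕ) : prim^[m] (0 : ℍ → ℂ) = 0 := by
  have := iterate_prim_smul cuspLike_zero 0 m
  simpa using this

theorem iterate_prim_sum {ι : Type*} (s : Finset ι) (F : ι → ℍ → ℂ)
    (hF : ∀ i ∈ s, CuspLike (F i)) (m : ℕ) :
    prim^[m] (∑ i ∈ s, F i) = ∑ i ∈ s, prim^[m] (F i) := by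
  classical
  induction s using Finset.induction_on with
  | empty => simpa using iterate_prim_zero m
  | insert a s ha ih =>
    rw [Finset.sum_insert ha, Finset.sum_insert ha,
      iterate_prim_add (hF a (Finset.mem_insert_self a s))
        (cuspLike_sum s F fun i hi => hF i (Finset.mem_insert_of_mem hi)),
      ih fun i hi => hF i (Finset.mem_insert_of_mem hi)]

/-- upper triangular with positive integer diagonal -/
structure IsUT (g : GL (Fin 2) ℝ) : Prop where
  c_zero : g 1 0 = 0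
  diag : ∃ a d : ℕ, 0 < a ∧ 0 < d ∧ g 0 0 = a ∧ g 1 1 = d

theorem IsUT.det_pos {g : GL (Fin 2) ℝ} (hg : IsUT g) : 0 < g.val.det := by
  obtain ⟨a, d, ha, hd, h0, h1⟩ := hg.diag
  rw [Matrix.det_fin_two, hg.c_zero, h0, h1]
  have : (0 : ℝ) < a * d := by positivity
  simpa using this

theorem IsUT.mul_upperRightHom {g : GL (Fin 2) ℝ} {a d : ℕ} (hc : g 1 0 = 0) (h0 : g 0 0 = a)
    (h1 : g 1 1 = d) (h : ℝ) :
    g * GeneralLinearGroup.upperRightHom (d * h) = GeneralLinearGroup.upperRightHom (a * h) * g := by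
  ext i j
  fin_cases i <;> fin_cases j <;>
    simp [Matrix.mul_apply, Fin.sum_univ_two, hc, h0, h1] <;> ring

theorem CuspLike.slash {F : ℍ → ℂ} (hF : CuspLike F) {g : GL (Fin 2) ℝ} (hg : IsUT g) (k : ℤ) :
    CuspLike (F ∣[k] g) := by
  obtain ⟨a, d, ha, hd, h0, h1⟩ := hg.diag
  obtain ⟨h, hh, hp⟩ := hF.per
  refine ⟨hF.mdiff.slash k g, ⟨d * h, Nat.mul_pos hd hh, ?_⟩, hF.zero.slash k hg.c_zero⟩
  rw [isPer_iff_slash k, ← SlashAction.slash_mul]
  push_cast
  rw [IsUT.mul_upperRightHom hg.c_zero h0 h1, SlashAction.slash_mul,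
    (isPer_iff_slash k _ _).mp (hp.nat_mul a)]

theorem prim_slash {H : ℍ → ℂ} (hH : CuspLike H) {g : GL (Fin 2) ℝ} (hg : IsUT g) (k : ℤ) :
    prim (H ∣[k] g) = (g.val.det : ℂ) • (prim H) ∣[k - 2] g := by
  have h1 := cuspLike_prim hH
  have h2 := (h1.slash hg (k - 2)).smul (g.val.det : ℂ)
  have hdetℂ : (g.val.det : ℂ) ≠ 0 := Complex.ofReal_ne_zero.mpr hg.det_pos.ne'
  refine (eq_prim (hH.slash hg k) h2.mdiff ?_ h2.zero).symm
  rw [normalizedDerivOfComplex_smul _ _ (h1.slash hg (k - 2)).mdiff,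
    normalizedDerivOfComplex_slash h1.mdiff hg.det_pos, D_prim hH]
  ext z
  simp only [Pi.smul_apply, smul_eq_mul, hg.c_zero, sub_add_cancel]
  simp
  field_simp

theorem iterate_prim_slash {H : ℍ → ℂ} (hH : CuspLike H) {g : GL (Fin 2) ℝ} (hg : IsUT g) (k : ℤ)
    (m : ℕ) :
    prim^[m] (H ∣[k] g) = ((g.val.det : ℂ) ^ m) • (prim^[m] H) ∣[k - 2 * m] g := by
  induction m with
  | zero => simp
  | succ m ih =>
    rw [Function.iterate_succ_apply', ih,
      prim_smul ((cuspLike_iterate_prim hH m).slash hg _), prim_slash (cuspLike_iterate_prim hH m) hg,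
      smul_smul, ← Function.iterate_succ_apply' prim, pow_succ]
    congr 2
    push_cast
    ring

end

end Fermat.Agent.S22
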