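import Fermat.Agent.S22.PerPoly

set_option autoImplicit false

open UpperHalfPlane hiding I
open Real Complex Filter Function Matrix Matrix.SpecialLinearGroup
open scoped Manifold MatrixGroups ModularForm Topology
open Derivative CongruenceSubgroup

namespace Fermat.Agent.S22

noncomputable section

theorem smul_slash_of_det_pos (k : ℤ) {g : GL (Fin 2) ℝ} (hg : 0 < g.val.det) (c : ℂ)
    (F : ℍ → ℂ) : (c • F) ∣[k] g = c • (F ∣[k] g) := by
  have hdet : g.det.val = g.val.det := Matrix.GeneralLinearGroup.val_det_apply g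
  rw [ModularForm.smul_slash]
  congr 1
  simp [σ, hdet, hg]

theorem perFun_add (n : ℕ) {F G : ℍ → ℂ} {g : GL (Fin 2) ℝ} (hF : CuspLike F) (hG : CuspLike G)
    (hFg : CuspLike (F ∣[(n : ℤ) + 2] g)) (hGg : CuspLike (G ∣[(n : ℤ) + 2] g)) :
    perFun n (F + G) g = perFun n F g + perFun n G g := by
  simp only [perFun, eich, SlashAction.add_slash, iterate_prim_add hF hG, iterate_prim_add hFg hGg]
  abel

theorem perFun_smul (n : ℕ) {F : ℍ → ℂ} {g : GL (Fin 2) ℝ} (hg : 0 < g.val.det) (hF : CuspLike F)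
    (hFg : CuspLike (F ∣[(n : ℤ) + 2] g)) (c : ℂ) :
    perFun n (c • F) g = c • perFun n F g := by
  simp only [perFun, eich, smul_slash_of_det_pos _ hg, iterate_prim_smul hF, iterate_prim_smul hFg,
    smul_sub]

variable {N : ℕ} [NeZero N] {n : ℕ}

theorem polyFun_perPoly_SL (f : CuspForm (Gamma0 N) ((n : ℤ) + 2)) (γ : SL(2, ℤ)) :
    polyFun (perPoly n ⇑f (mapGL ℝ γ)) = perFun n ⇑f (mapGL ℝ γ) :=
  polyFun_perPoly n (det_mapGL γ) (cuspLike_coe f) (cuspLike_slash_SL f γ)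

theorem perPoly_add (f g : CuspForm (Gamma0 N) ((n : ℤ) + 2)) (γ : SL(2, ℤ)) :
    perPoly n ⇑(f + g) (mapGL ℝ γ) = perPoly n ⇑f (mapGL ℝ γ) + perPoly n ⇑g (mapGL ℝ γ) := by
  apply polyFun_injective
  rw [polyFun_add, polyFun_perPoly_SL, polyFun_perPoly_SL, polyFun_perPoly_SL, FunLike.coe_add,
    perFun_add n (cuspLike_coe f) (cuspLike_coe g) (cuspLike_slash_SL f γ) (cuspLike_slash_SL g γ)]

theorem perPoly_smul (c : ℂ) (f : CuspForm (Gamma0 N) ((n : ℤ) + 2)) (γ : SL(2, ℤ)) :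
    perPoly n ⇑(c • f) (mapGL ℝ γ) = c • perPoly n ⇑f (mapGL ℝ γ) := by
  apply polyFun_injective
  rw [polyFun_smul, polyFun_perPoly_SL, polyFun_perPoly_SL, FunLike.coe_smul,
    perFun_smul n (by rw [det_mapGL]; exact one_pos) (cuspLike_coe f) (cuspLike_slash_SL f γ)]

/-- the coefficient functionals of the period polynomials -/
def lam (N : ℕ) [NeZero N] (n : ℕ) (γ : SL(2, ℤ)) (j : ℕ) :
    Module.Dual ℂ (CuspForm (Gamma0 N) ((n : ℤ) + 2)) where
  toFun f := (perPoly n ⇑f (mapGL ℝ γ)).coeff j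
  map_add' f g := by rw [perPoly_add, Polynomial.coeff_add]
  map_smul' c f := by rw [perPoly_smul, Polynomial.coeff_smul]; rfl

theorem lam_apply (γ : SL(2, ℤ)) (j : ℕ) (f : CuspForm (Gamma0 N) ((n : ℤ) + 2)) :
    lam N n γ j f = (perPoly n ⇑f (mapGL ℝ γ)).coeff j := rfl

theorem lam_eq_zero_of_lt (γ : SL(2, ℤ)) {j : ℕ} (hj : n < j) : lam N n γ j = 0 := by
  ext f
  rw [lam_apply]
  apply Polynomial.coeff_eq_zero_of_degree_lt
  refine lt_of_lt_of_le (degree_perPoly n _ _) ?_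
  exact_mod_cast hj

theorem perPoly_mul (f : CuspForm (Gamma0 N) ((n : ℤ) + 2)) {γ₁ : SL(2, ℤ)} (h₁ : γ₁ ∈ Gamma0 N)
    (γ₂ : SL(2, ℤ)) :
    perPoly n ⇑f (mapGL ℝ (γ₁ * γ₂)) =
      polyAct n (mapGL ℝ γ₂) (perPoly n ⇑f (mapGL ℝ γ₁)) + perPoly n ⇑f (mapGL ℝ γ₂) := by
  apply polyFun_injective
  rw [polyFun_add, polyFun_perPoly_SL, polyFun_perPoly_SL, map_mul, perFun_mul, slash_eq_self f h₁,
    ← polyFun_perPoly_SL f γ₁,
    slash_polyFun n (by rw [det_mapGL]; exact one_pos) (degree_perPoly n _ _), det_mapGL]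
  simp

theorem perPoly_one (f : CuspForm (Gamma0 N) ((n : ℤ) + 2)) :
    perPoly n ⇑f (mapGL ℝ (1 : SL(2, ℤ))) = 0 := by
  apply polyFun_injective
  rw [polyFun_perPoly_SL, polyFun_zero, map_one, perFun]
  simp

/-- integer matrix of the action of `γ` -/
def actSL (n : ℕ) (γ : SL(2, ℤ)) (i j : ℕ) : ℤ := actCoeff n (γ 0 0) (γ 0 1) (γ 1 0) (γ 1 1) i j

theorem coeff_polyAct_SL (γ : SL(2, ℤ)) (p : Polynomial ℂ) (j : ℕ) :
    (polyAct n (mapGL ℝ γ) p).coeff j =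
      ∑ i ∈ Finset.range (n + 1), (actSL n γ i j : ℂ) * p.coeff i :=
  coeff_polyAct n (mapGL_entry γ 0 0) (mapGL_entry γ 0 1) (mapGL_entry γ 1 0) (mapGL_entry γ 1 1) p j

theorem lam_mul {γ₁ : SL(2, ℤ)} (h₁ : γ₁ ∈ Gamma0 N) (γ₂ : SL(2, ℤ)) (j : ℕ) :
    lam N n (γ₁ * γ₂) j =
      ∑ i ∈ Finset.range (n + 1), (actSL n γ₂ i j) • lam N n γ₁ i + lam N n γ₂ j := by
  ext f
  simp only [lam_apply, LinearMap.add_apply, LinearMap.sum_apply, LinearMap.smul_apply]
  rw [perPoly_mul f h₁, Polynomial.coeff_add, coeff_polyAct_SL]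
  simp

theorem lam_one (j : ℕ) : lam N n 1 j = 0 := by
  ext f
  rw [lam_apply, perPoly_one]
  simp

/-- the period lattice -/
def Lam (N : ℕ) [NeZero N] (n : ℕ) : Submodule ℤ (Module.Dual ℂ (CuspForm (Gamma0 N) ((n : ℤ) + 2))) :=
  Submodule.span ℤ {l | ∃ γ ∈ Gamma0 N, ∃ j : ℕ, l = lam N n γ j}

theorem lam_mem_Lam {γ : SL(2, ℤ)} (hγ : γ ∈ Gamma0 N) (j : ℕ) : lam N n γ j ∈ Lam N n :=
  Submodule.subset_span ⟨γ, hγ, j, rfl⟩

instance : Group.FG SL(2, ℤ) := by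
  rw [Group.fg_iff]
  exact ⟨{ModularGroup.S, ModularGroup.T}, SpecialLinearGroup.SL2Z_generators, by simp⟩

theorem Gamma0_fg (N : ℕ) [NeZero N] : (Gamma0 N).FG :=
  (Group.fg_iff_subgroup_fg _).mp (Subgroup.fg_of_index_ne_zero (Gamma0 N))

theorem Lam_fg (N : ℕ) [NeZero N] (n : ℕ) : (Lam N n).FG := by
  obtain ⟨S, hS, hfin⟩ := (Subgroup.fg_iff _).mp (Gamma0_fg N)
  set gen : Set (Module.Dual ℂ (CuspForm (Gamma0 N) ((n : ℤ) + 2))) :=
    (fun x : SL(2, ℤ) × ℕ => lam N n x.1 x.2) '' (S ×ˢ (Finset.range (n + 1) : Set ℕ)) with hgen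
  have hgenfin : gen.Finite := (hfin.prod (Finset.finite_toSet _)).image _
  have key : ∀ γ ∈ Subgroup.closure S, ∀ j, lam N n γ j ∈ Submodule.span ℤ gen := by
    intro γ hγ
    induction hγ using Subgroup.closure_induction with
    | mem x hx =>
      intro j
      by_cases hj : n < j
      · rw [lam_eq_zero_of_lt x hj]; exact Submodule.zero_mem _
      · apply Submodule.subset_span
        exact ⟨(x, j), ⟨hx, by simpa using Nat.lt_succ_of_le (not_lt.mp hj)⟩, rfl⟩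
    | one => intro j; rw [lam_one]; exact Submodule.zero_mem _
    | mul x y hx hy ihx ihy =>
      intro j
      rw [lam_mul (hS ▸ hx) y j]
      exact Submodule.add_mem _ (Submodule.sum_mem _ fun i _ => Submodule.smul_mem _ _ (ihx i)) (ihy j)
    | inv x hx ih =>
      intro j
      have h := lam_mul (n := n) (hS ▸ hx : x ∈ Gamma0 N) x⁻¹ j
      rw [mul_inv_cancel, lam_one] at h
      have h2 : lam N n x⁻¹ j = - ∑ i ∈ Finset.range (n + 1), (actSL n x⁻¹ i j) • lam N n x i := by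
        rw [eq_neg_iff_add_eq_zero]; exact (add_comm _ _).trans h.symm
      rw [h2]
      exact Submodule.neg_mem _ (Submodule.sum_mem _ fun i _ => Submodule.smul_mem _ _ (ih i))
  have heq : Lam N n = Submodule.span ℤ gen := by
    apply le_antisymm
    · rw [Lam, Submodule.span_le]
      rintro _ ⟨γ, hγ, j, rfl⟩
      exact key γ (hS ▸ hγ) j
    · rw [Submodule.span_le]
      rintro _ ⟨⟨γ, j⟩, ⟨hγ, -⟩, rfl⟩
      exact lam_mem_Lam (hS ▸ Subgroup.subset_closure hγ) j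
  rw [heq]
  exact Submodule.fg_span hgenfin

end

end Fermat.Agent.S22
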