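import Fermat.Agent.S22.PolyOfDeriv

set_option autoImplicit false

open UpperHalfPlane hiding I
open Real Complex
open scoped Manifold MatrixGroups ModularForm Topology
open Derivative

namespace Fermat.Agent.S22

noncomputable section

open Polynomial in
/-- the (unnormalised) weight `-n` action of a matrix on polynomials of degree `≤ n` -/
def polyAct (n : ℕ) (g : GL (Fin 2) ℝ) (p : Polynomial ℂ) : Polynomial ℂ :=
  ∑ i ∈ Finset.range (n + 1), C (p.coeff i) * (C (g 0 0 : ℂ) * X + C (g 0 1 : ℂ)) ^ i *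
    (C (g 1 0 : ℂ) * X + C (g 1 1 : ℂ)) ^ (n - i)

theorem slash_polyFun (n : ℕ) {g : GL (Fin 2) ℝ} (hg : 0 < g.val.det) {p : Polynomial ℂ}
    (hp : p.degree < (n + 1 : ℕ)) :
    polyFun p ∣[-(n : ℤ)] g = ((g.val.det : ℂ)⁻¹ ^ (n + 1)) • polyFun (polyAct n g p) := by
  have hdet : g.det.val = g.val.det := Matrix.GeneralLinearGroup.val_det_apply g
  have hdetℂ : (g.val.det : ℂ) ≠ 0 := Complex.ofReal_ne_zero.mpr hg.ne'
  have hσ (x) : σ g x = x := by
    simp [σ, hdet, hg]
  ext z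
  have hz := denom_ne_zero g z
  have hnd : p.natDegree < n + 1 := by
    rcases eq_or_ne p 0 with rfl | hp0
    · simp
    · exact (Polynomial.natDegree_lt_iff_degree_lt hp0).mpr hp
  simp only [ModularForm.slash_apply, polyFun, hσ, hdet, abs_of_pos hg, Pi.smul_apply, smul_eq_mul,
    polyAct, neg_neg, zpow_natCast]
  rw [UpperHalfPlane.coe_smul_of_det_pos (by rwa [hdet]), Polynomial.eval_eq_sum_range' hnd,
    Polynomial.eval_finsetSum, show -(n : ℤ) - 1 = -((n + 1 : ℕ) : ℤ) by push_cast; ring,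
    zpow_neg, zpow_natCast, inv_pow, mul_assoc, mul_comm, mul_assoc, Finset.mul_sum,
    Finset.mul_sum, Finset.mul_sum]
  refine Finset.sum_congr rfl fun i hi => ?_
  have hi' : i ≤ n := Nat.lt_succ_iff.mp (Finset.mem_range.mp hi)
  simp only [Polynomial.eval_mul, Polynomial.eval_C, Polynomial.eval_pow, Polynomial.eval_add,
    Polynomial.eval_X]
  have h1 : num g z = (g 0 0 : ℂ) * z + (g 0 1 : ℂ) := rfl
  have h2 : denom g z = (g 1 0 : ℂ) * z + (g 1 1 : ℂ) := rfl
  rw [← h1, ← h2, div_pow]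
  have h3 : denom g z ^ n = denom g z ^ (n - i) * denom g z ^ i := by
    rw [← pow_add, Nat.sub_add_cancel hi']
  rw [h3]
  field_simp

open Polynomial in
/-- the integer matrix of `polyAct` -/
def actCoeff (n : ℕ) (a b c d : ℤ) (i j : ℕ) : ℤ :=
  ((C a * X + C b : Polynomial ℤ) ^ i * (C c * X + C d) ^ (n - i)).coeff j

theorem coeff_polyAct (n : ℕ) {g : GL (Fin 2) ℝ} {a b c d : ℤ} (ha : g 0 0 = a) (hb : g 0 1 = b)
    (hc : g 1 0 = c) (hd : g 1 1 = d) (p : Polynomial ℂ) (j : ℕ) :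
    (polyAct n g p).coeff j =
      ∑ i ∈ Finset.range (n + 1), (actCoeff n a b c d i j : ℂ) * p.coeff i := by
  rw [polyAct, Polynomial.finsetSum_coeff]
  refine Finset.sum_congr rfl fun i _ => ?_
  rw [mul_assoc, Polynomial.coeff_C_mul, mul_comm, ha, hb, hc, hd, actCoeff]
  congr 1
  have : ((Polynomial.C ((a : ℝ) : ℂ) * Polynomial.X + Polynomial.C ((b : ℝ) : ℂ)) ^ i *
      (Polynomial.C ((c : ℝ) : ℂ) * Polynomial.X + Polynomial.C ((d : ℝ) : ℂ)) ^ (n - i)) =
      Polynomial.map (Int.castRingHom ℂ)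
        ((Polynomial.C a * Polynomial.X + Polynomial.C b : Polynomial ℤ) ^ i *
          (Polynomial.C c * Polynomial.X + Polynomial.C d) ^ (n - i)) := by
    simp
  rw [this, Polynomial.coeff_map]
  simp

end

end Fermat.Agent.S22
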