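import Fermat.Agent.S22.Eichler
import Fermat.Agent.S22.PolyAct
import Fermat.Prelude.Def_CuspForm_HeckeAlgebra
import Fermat.Prelude.Thm_CongruenceSubgroup_one_mem_strictPeriods_Gamma0

set_option autoImplicit false

open UpperHalfPlane hiding I
open Real Complex Filter Function Matrix Matrix.SpecialLinearGroup
open scoped Manifold MatrixGroups ModularForm Topology
open Derivative CongruenceSubgroup

namespace Fermat.Agent.S22

noncomputable section

theorem mapGL_entry (g : SL(2, ℤ)) (i j : Fin 2) :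
    (mapGL ℝ g : GL (Fin 2) ℝ) i j = ((g i j : ℤ) : ℝ) := by
  simp

theorem det_mapGL (g : SL(2, ℤ)) : (mapGL ℝ g : GL (Fin 2) ℝ).val.det = 1 := by
  rw [← Matrix.GeneralLinearGroup.val_det_apply]; simp

theorem mapGL_T_zpow (m : ℤ) :
    mapGL ℝ (ModularGroup.T ^ m) = GeneralLinearGroup.upperRightHom (m : ℝ) := by
  ext i j
  rw [mapGL_entry, ModularGroup.coe_T_zpow]
  fin_cases i <;> fin_cases j <;> simp

variable {N : ℕ} [NeZero N] {k : ℤ}

omit [NeZero N] in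
theorem slash_eq_self (f : CuspForm (Gamma0 N) k) {γ : SL(2, ℤ)} (hγ : γ ∈ Gamma0 N) :
    ⇑f ∣[k] mapGL ℝ γ = ⇑f :=
  SlashInvariantFormClass.slash_action_eq f _ (Subgroup.mem_map_of_mem (mapGL ℝ) hγ)

theorem cuspLike_slash_SL (f : CuspForm (Gamma0 N) k) (γ : SL(2, ℤ)) :
    CuspLike (⇑f ∣[k] mapGL ℝ γ) := by
  refine ⟨(CuspFormClass.holo f).slash k _, ⟨N, Nat.pos_of_ne_zero (NeZero.ne N), ?_⟩,
    CuspFormClass.zero_at_infty_slash f γ⟩
  rw [isPer_iff_slash k, ← SlashAction.slash_mul]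
  have h1 : γ * ModularGroup.T ^ (N : ℤ) * γ⁻¹ ∈ Gamma0 N := by
    have h2 : γ * ModularGroup.T ^ (N : ℤ) * γ⁻¹ ∈ CongruenceSubgroup.Gamma N :=
      (Gamma_normal N).conj_mem _ (ModularGroup_T_pow_mem_Gamma N N dvd_rfl) γ
    rw [Gamma_mem] at h2
    rw [Gamma0_mem]
    exact h2.2.2.1
  have h3 : mapGL ℝ γ * GeneralLinearGroup.upperRightHom ((N : ℕ) : ℝ) =
      mapGL ℝ (γ * ModularGroup.T ^ (N : ℤ) * γ⁻¹) * mapGL ℝ γ := by
    rw [← map_mul, inv_mul_cancel_right, map_mul, mapGL_T_zpow]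
    simp
  rw [h3, SlashAction.slash_mul, slash_eq_self f h1]

theorem cuspLike_coe (f : CuspForm (Gamma0 N) k) : CuspLike ⇑f := by
  have := cuspLike_slash_SL f 1
  simpa using this

/-- the Eichler integral: `(n+1)`-fold primitive vanishing at `i∞` -/
def eich (n : ℕ) (F : ℍ → ℂ) : ℍ → ℂ := prim^[n + 1] F

/-- the period function -/
def perFun (n : ℕ) (F : ℍ → ℂ) (g : GL (Fin 2) ℝ) : ℍ → ℂ :=
  (eich n F) ∣[-(n : ℤ)] g - eich n (F ∣[(n : ℤ) + 2] g)

theorem perFun_mul (n : ℕ) (F : ℍ → ℂ) (g₁ g₂ : GL (Fin 2) ℝ) :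
    perFun n F (g₁ * g₂) = (perFun n F g₁) ∣[-(n : ℤ)] g₂ + perFun n (F ∣[(n : ℤ) + 2] g₁) g₂ := by
  simp only [perFun, SlashAction.slash_mul, sub_eq_add_neg, SlashAction.add_slash,
    SlashAction.neg_slash]
  abel

theorem exists_poly_perFun (n : ℕ) {F : ℍ → ℂ} {g : GL (Fin 2) ℝ} (hg : g.val.det = 1)
    (hF : CuspLike F) (hFg : CuspLike (F ∣[(n : ℤ) + 2] g)) :
    ∃ p : Polynomial ℂ, p.degree < (n + 1 : ℕ) ∧ perFun n F g = polyFun p := by
  have h1 : MDiff (eich n F) := (cuspLike_iterate_prim hF _).mdiff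
  have h2 : MDiff (eich n (F ∣[(n : ℤ) + 2] g)) := (cuspLike_iterate_prim hFg _).mdiff
  apply exists_poly_of_iterate_D_eq_zero (n + 1) ((h1.slash _ _).sub h2)
  rw [iterate_D_sub (h1.slash _ _) h2, bol n h1 (by rw [hg]; exact one_pos), hg, eich, eich,
    iterate_D_iterate_prim hF, iterate_D_iterate_prim hFg]
  simp

open Classical in
/-- the period polynomial -/
def perPoly (n : ℕ) (F : ℍ → ℂ) (g : GL (Fin 2) ℝ) : Polynomial ℂ :=
  if h : ∃ p : Polynomial ℂ, p.degree < (n + 1 : ℕ) ∧ perFun n F g = polyFun p then h.choose else 0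

theorem degree_perPoly (n : ℕ) (F : ℍ → ℂ) (g : GL (Fin 2) ℝ) :
    (perPoly n F g).degree < (n + 1 : ℕ) := by
  rw [perPoly]
  split_ifs with h
  · exact h.choose_spec.1
  · simp only [Polynomial.degree_zero]
    exact WithBot.bot_lt_coe _

theorem polyFun_perPoly (n : ℕ) {F : ℍ → ℂ} {g : GL (Fin 2) ℝ} (hg : g.val.det = 1)
    (hF : CuspLike F) (hFg : CuspLike (F ∣[(n : ℤ) + 2] g)) :
    polyFun (perPoly n F g) = perFun n F g := by
  rw [perPoly, dif_pos (exists_poly_perFun n hg hF hFg)]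
  exact (exists_poly_perFun n hg hF hFg).choose_spec.2.symm

end

end Fermat.Agent.S22
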