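import Fermat.Agent.S22.Bol
import Mathlib.Analysis.Calculus.MeanValue
import Mathlib.Analysis.Complex.Convex
import Mathlib.Algebra.Polynomial.Derivative

set_option autoImplicit false

open UpperHalfPlane hiding I
open Real Complex
open scoped Manifold MatrixGroups ModularForm Topology
open Derivative

namespace Fermat.Agent.S22

noncomputable section

theorem const_of_D_eq_zero {P : ℍ → ℂ} (hP : MDiff P) (h : D P = 0) : ∃ c : ℂ, ∀ z, P z = c := by
  have hd : DifferentiableOn ℂ (P ∘ ofComplex) upperHalfPlaneSet :=
    UpperHalfPlane.mdifferentiable_iff.mp hP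
  have hz : upperHalfPlaneSet.EqOn (deriv (P ∘ ofComplex)) 0 := by
    intro w hw
    have h0 := congrFun h ⟨w, hw⟩
    have h2 : (2 * π * I : ℂ)⁻¹ ≠ 0 := by
      simp [Real.pi_ne_zero]
    simp only [normalizedDerivOfComplex, Pi.zero_apply] at h0
    exact (mul_eq_zero.mp h0).resolve_left h2
  obtain ⟨a, ha⟩ := isOpen_upperHalfPlaneSet.exists_is_const_of_deriv_eq_zero
    (convex_halfSpace_im_gt 0).isPreconnected hd hz
  refine ⟨a, fun z => ?_⟩
  have := ha z z.im_pos
  simpa using this

/-- polynomial functions on the upper half plane -/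
def polyFun (p : Polynomial ℂ) : ℍ → ℂ := fun z => p.eval (z : ℂ)

theorem mdiff_polyFun (p : Polynomial ℂ) : MDiff (polyFun p) := by
  rw [UpperHalfPlane.mdifferentiable_iff]
  have : DifferentiableOn ℂ (fun w : ℂ => p.eval w) upperHalfPlaneSet :=
    p.differentiable.differentiableOn
  refine this.congr fun w hw => ?_
  simp [polyFun, ofComplex_apply_of_im_pos hw]

theorem D_polyFun (p : Polynomial ℂ) :
    D (polyFun p) = (2 * π * I : ℂ)⁻¹ • polyFun (Polynomial.derivative p) := by
  ext z
  have hcomp : (polyFun p ∘ ofComplex) =ᶠ[𝓝 ↑z] fun w => p.eval w := by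
    filter_upwards [isOpen_upperHalfPlaneSet.mem_nhds z.im_pos] with w hw
    simp [polyFun, ofComplex_apply_of_im_pos hw]
  simp only [normalizedDerivOfComplex, Pi.smul_apply, smul_eq_mul, polyFun]
  rw [hcomp.deriv_eq, Polynomial.deriv]

theorem iterate_D_polyFun (p : Polynomial ℂ) (m : ℕ) :
    D^[m] (polyFun p) = ((2 * π * I : ℂ)⁻¹ ^ m) • polyFun (Polynomial.derivative^[m] p) := by
  induction m with
  | zero => simp
  | succ m ih =>
    rw [Function.iterate_succ_apply', ih, normalizedDerivOfComplex_smul _ _ (mdiff_polyFun _),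
      D_polyFun, smul_smul, ← Function.iterate_succ_apply' Polynomial.derivative, pow_succ]

theorem polyFun_add (p q : Polynomial ℂ) : polyFun (p + q) = polyFun p + polyFun q := by
  ext z; simp [polyFun]

theorem polyFun_sub (p q : Polynomial ℂ) : polyFun (p - q) = polyFun p - polyFun q := by
  ext z; simp [polyFun]

theorem polyFun_smul (c : ℂ) (p : Polynomial ℂ) : polyFun (c • p) = c • polyFun p := by
  ext z; simp [polyFun]

theorem polyFun_zero : polyFun 0 = 0 := by
  ext z; simp [polyFun]

theorem polyFun_injective : Function.Injective polyFun := by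
  intro p q h
  apply Polynomial.eq_of_infinite_eval_eq p q
  have hinf : (Set.range (fun z : ℍ => (z : ℂ))).Infinite := by
    apply Set.infinite_range_of_injective
    exact UpperHalfPlane.coe_injective
  refine hinf.mono ?_
  rintro _ ⟨z, rfl⟩
  exact congrFun h z

theorem iterate_D_sub {F G : ℍ → ℂ} (hF : MDiff F) (hG : MDiff G) (m : ℕ) :
    D^[m] (F - G) = D^[m] F - D^[m] G := by
  induction m with
  | zero => rfl
  | succ m ih =>
    rw [Function.iterate_succ_apply', ih,
      normalizedDerivOfComplex_sub _ _ (mdiff_iterate_D hF m) (mdiff_iterate_D hG m),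
      ← Function.iterate_succ_apply' D, ← Function.iterate_succ_apply' D]

theorem iterate_D_add {F G : ℍ → ℂ} (hF : MDiff F) (hG : MDiff G) (m : ℕ) :
    D^[m] (F + G) = D^[m] F + D^[m] G := by
  induction m with
  | zero => rfl
  | succ m ih =>
    rw [Function.iterate_succ_apply', ih,
      normalizedDerivOfComplex_add _ _ (mdiff_iterate_D hF m) (mdiff_iterate_D hG m),
      ← Function.iterate_succ_apply' D, ← Function.iterate_succ_apply' D]

theorem exists_poly_of_iterate_D_eq_zero (n : ℕ) {P : ℍ → ℂ} (hP : MDiff P) (h : D^[n] P = 0) :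
    ∃ p : Polynomial ℂ, p.degree < n ∧ P = polyFun p := by
  induction n generalizing P with
  | zero =>
    refine ⟨0, ?_, ?_⟩
    · simp
    · simpa [polyFun_zero] using h
  | succ n ih =>
    rw [Function.iterate_succ_apply'] at h
    obtain ⟨c, hc⟩ := const_of_D_eq_zero (mdiff_iterate_D hP n) h
    have h2 : (2 * π * I : ℂ) ≠ 0 := by simp [Real.pi_ne_zero]
    have hfac : (n.factorial : ℂ) ≠ 0 := by exact_mod_cast n.factorial_ne_zero
    set c' : ℂ := c * (2 * π * I) ^ n / n.factorial with hc'
    set m : Polynomial ℂ := c' • Polynomial.X ^ n with hm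
    have hDm : D^[n] (polyFun m) = fun _ => c := by
      rw [iterate_D_polyFun, hm, Polynomial.iterate_derivative_smul,
        Polynomial.iterate_derivative_X_pow_eq_smul]
      ext z
      simp only [Nat.descFactorial_self, Nat.sub_self, pow_zero, polyFun, Pi.smul_apply,
        smul_eq_mul, Polynomial.eval_smul, Polynomial.eval_one, hc', mul_one,
        inv_pow]
      field_simp
    have hQ : D^[n] (P - polyFun m) = 0 := by
      rw [iterate_D_sub hP (mdiff_polyFun m), hDm]
      ext z
      simp [hc z]
    obtain ⟨p, hp, hPp⟩ := ih (hP.sub (mdiff_polyFun m)) hQ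
    refine ⟨p + m, ?_, ?_⟩
    · refine lt_of_le_of_lt (Polynomial.degree_add_le _ _) (max_lt ?_ ?_)
      · refine lt_trans hp ?_
        exact_mod_cast Nat.lt_succ_self n
      · refine lt_of_le_of_lt (Polynomial.degree_smul_le _ _) ?_
        rw [Polynomial.degree_X_pow]
        exact_mod_cast Nat.lt_succ_self n
    · rw [polyFun_add, ← hPp]
      ext z; simp

end

end Fermat.Agent.S22
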