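import Fermat.Agent.S22.Lam

set_option autoImplicit false

open UpperHalfPlane hiding I
open Real Complex Filter Function Matrix Matrix.SpecialLinearGroup
open scoped Manifold MatrixGroups ModularForm Topology
open Derivative CongruenceSubgroup

namespace Fermat.Agent.S22

noncomputable section

theorem polyFun_sum {ι : Type*} (s : Finset ι) (p : ι → Polynomial ℂ) :
    polyFun (∑ i ∈ s, p i) = ∑ i ∈ s, polyFun (p i) := by
  ext z
  simp [polyFun, Polynomial.eval_finsetSum]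

theorem eich_slash_UT (n : ℕ) {H : ℍ → ℂ} (hH : CuspLike H) {g : GL (Fin 2) ℝ} (hg : IsUT g) :
    eich n (H ∣[(n : ℤ) + 2] g) = ((g.val.det : ℂ) ^ (n + 1)) • (eich n H) ∣[-(n : ℤ)] g := by
  rw [eich, iterate_prim_slash hH hg, eich]
  congr 2
  push_cast
  ring

variable {N : ℕ} [NeZero N] {n : ℕ}

theorem perPoly_hecke {ι : Type} [Fintype ι] (α : ι → GL (Fin 2) ℝ) (hUT : ∀ i, IsUT (α i))
    (ℓ : ℕ) (hℓ : 0 < ℓ) (hdet : ∀ i, (α i).val.det = ℓ)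
    (f tf : CuspForm (Gamma0 N) ((n : ℤ) + 2)) (ht : ⇑tf = ∑ i, ⇑f ∣[(n : ℤ) + 2] α i)
    (γ : SL(2, ℤ)) (γ' : ι → SL(2, ℤ)) (hγ' : ∀ i, γ' i ∈ Gamma0 N) (i' : ι → ι)
    (hcos : ∀ i, α i * mapGL ℝ γ = mapGL ℝ (γ' i) * α (i' i)) :
    perPoly n ⇑tf (mapGL ℝ γ) = ∑ i, polyAct n (α (i' i)) (perPoly n ⇑f (mapGL ℝ (γ' i))) := by
  have hf := cuspLike_coe f
  have hγpos : 0 < (mapGL ℝ γ : GL (Fin 2) ℝ).val.det := by rw [det_mapGL]; exact one_pos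
  have hℓℂ : (ℓ : ℂ) ≠ 0 := by exact_mod_cast hℓ.ne'
  apply polyFun_injective
  rw [polyFun_perPoly_SL, polyFun_sum, perFun]
  -- first term
  have h1 : eich n ⇑tf = ∑ i, ((ℓ : ℂ) ^ (n + 1)) • (eich n ⇑f) ∣[-(n : ℤ)] α i := by
    rw [ht, eich, iterate_prim_sum _ _ fun i _ => hf.slash (hUT i) _]
    refine Finset.sum_congr rfl fun i _ => ?_
    have := eich_slash_UT n hf (hUT i)
    rw [eich, hdet i] at this
    rw [this]
    simp
  have h2 : (eich n ⇑tf) ∣[-(n : ℤ)] mapGL ℝ γ =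
      ∑ i, ((ℓ : ℂ) ^ (n + 1)) • ((eich n ⇑f) ∣[-(n : ℤ)] mapGL ℝ (γ' i)) ∣[-(n : ℤ)] α (i' i) := by
    rw [h1, SlashAction.sum_slash]
    refine Finset.sum_congr rfl fun i _ => ?_
    rw [smul_slash_of_det_pos _ hγpos, ← SlashAction.slash_mul, hcos i, SlashAction.slash_mul]
  have h3 : ⇑tf ∣[(n : ℤ) + 2] mapGL ℝ γ = ∑ i, ⇑f ∣[(n : ℤ) + 2] α (i' i) := by
    rw [ht, SlashAction.sum_slash]
    refine Finset.sum_congr rfl fun i _ => ?_
    rw [← SlashAction.slash_mul, hcos i, SlashAction.slash_mul, slash_eq_self f (hγ' i)]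
  have h4 : eich n (⇑tf ∣[(n : ℤ) + 2] mapGL ℝ γ) =
      ∑ i, ((ℓ : ℂ) ^ (n + 1)) • (eich n ⇑f) ∣[-(n : ℤ)] α (i' i) := by
    rw [h3, eich, iterate_prim_sum _ _ fun i _ => hf.slash (hUT _) _]
    refine Finset.sum_congr rfl fun i _ => ?_
    have := eich_slash_UT n hf (hUT (i' i))
    rw [eich, hdet] at this
    rw [this]
    simp
  rw [h2, h4, ← Finset.sum_sub_distrib]
  refine Finset.sum_congr rfl fun i _ => ?_
  rw [← smul_sub]
  have h5 : (eich n ⇑f ∣[-(n : ℤ)] mapGL ℝ (γ' i)) ∣[-(n : ℤ)] α (i' i) -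
      eich n ⇑f ∣[-(n : ℤ)] α (i' i) =
      (polyFun (perPoly n ⇑f (mapGL ℝ (γ' i)))) ∣[-(n : ℤ)] α (i' i) := by
    rw [polyFun_perPoly_SL, perFun, slash_eq_self f (hγ' i), sub_eq_add_neg, sub_eq_add_neg,
      SlashAction.add_slash, SlashAction.neg_slash]
  rw [h5, slash_polyFun n (hUT _).det_pos (degree_perPoly n _ _), hdet, smul_smul]
  have h6 : (ℓ : ℂ) ^ (n + 1) * (((ℓ : ℝ) : ℂ))⁻¹ ^ (n + 1) = 1 := by
    rw [← mul_pow]
    simp [hℓℂ]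
  rw [h6, one_smul]

end

end Fermat.Agent.S22
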